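/-
Cluster L (S41, level raising), WP NEW-C (assembly of `NewStatement`).  Owner: helper67.

Interface between the forms side (NEW-A helper63, NEW-B helper8) and the assembly (NEW-C):
one `Prop`, `NewFormsStatement N q`.  The assembly proves
`DegStatement N q → NewFormsStatement N q → NewStatement N q`
(file `Fermat/Agent/L/NewC/Assembly.lean`).
-/
import Fermat.Agent.L.Interfaces
import Fermat.Prelude.Def_ModularForm_HeckeOperatorForms
import Fermat.Prelude.Def_ModularCurve_PeriodMapBundled

set_option autoImplicit false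

noncomputable section

namespace Fermat.Agent.LNewC

open CongruenceSubgroup ModularCurve ModularCurve.Period Fermat.Agent.L
open scoped MatrixGroups

/-- **WP NEW-A + NEW-B** (forms side of the new lattice).  There are two `ℂ`-linear maps
`tr, trD : S₂(Γ₀(N q)) → S₂(Γ₀(N))` (the trace, and the trace after the Atkin–Lehner
involution `W_q`; `trD f = ∑ f ∣[2] (diag(1, q) ρ_i)`) such that
* (NEW-B) the period map intertwines them with the two corestrictions
  `coresAll`, `coresAllD : Hom(Γ₀(N q), ℂ) → Hom(Γ₀(N), ℂ)`;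
* (NEW-A) on `ker tr ∩ ker trD` (the `q`-new forms) the operator `U_q` is an involution. -/
def NewFormsStatement (N q : ℕ) [NeZero q] : Prop :=
  q.Prime → ¬ q ∣ N → 0 < N →
  ∃ tr trD : CuspForm (Gamma0 (N * q)) 2 →ₗ[ℂ] CuspForm (Gamma0 N) 2,
    (∀ f : CuspForm (Gamma0 (N * q)) 2,
      periodMap N (tr f) = coresAll N q ℂ (periodMap (N * q) f)) ∧
    (∀ f : CuspForm (Gamma0 (N * q)) 2,
      periodMap N (trD f) = coresAllD N q ℂ (periodMap (N * q) f)) ∧
    (∀ h : CuspForm (Gamma0 (N * q)) 2, tr h = 0 → trD h = 0 →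
      ModularForm.heckeU 2 q (ModularForm.heckeU 2 q ⇑h) = ⇑h)

end Fermat.Agent.LNewC
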