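/-
Cluster L (S41, level raising), WP NEW-C.  Owner: helper67.

Naturality of the corestriction `L.coresFun`:
* in the coefficients (`coresFun_comp_coeff`);
* under a pair of compatible automorphisms of the two groups (`coresFun_comp_equiv`);
and the two consequences for `coresAll`, `coresAllD`: they commute with the change of coefficients
`ℤ → ℂ`, with multiplication by a complex number, and with `charInvolution`.
-/
import Fermat.Agent.L.Degen.Bridge
import Fermat.Agent.F3.EigenChar.Lattice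
import Fermat.Prelude.Def_ModularCurve_PeriodHomPair

set_option autoImplicit false

noncomputable section

namespace Fermat.Agent.LNewC

open Subgroup MonoidHom Fermat.Agent.LDeg Fermat.Agent.L

section General

variable {G H : Type*} [Group G] [Group H]

/-- The corestriction is natural in the coefficients. -/
theorem coresFun_comp_coeff (f : H →* G) {A B : Type*} [AddCommGroup A] [AddCommGroup B]
    (ψ : A →+ B) (c : Additive H →+ A) :
    coresFun f B (ψ.comp c) = ψ.comp (coresFun f A c) := by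
  classical
  by_cases h : Function.Injective f ∧ f.range.FiniteIndex
  · obtain ⟨hf, hfin⟩ := h
    refine AddMonoidHom.ext fun γ => ?_
    obtain ⟨γ, rfl⟩ := Additive.ofMul.surjective γ
    rw [AddMonoidHom.comp_apply, coresFun_apply f B hf, coresFun_apply f A hf]
    let _ : Fintype (G ⧸ f.range) := f.range.fintypeQuotientOfFiniteIndex
    rw [transfer_eq_prod_section _ Quotient.out QuotientGroup.out_eq' γ,
      transfer_eq_prod_section _ Quotient.out QuotientGroup.out_eq' γ, toAdd_prod, toAdd_prod,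
      map_sum]
    rfl
  · rw [coresFun_of_not f B h, coresFun_of_not f A h, AddMonoidHom.comp_zero]

/-- The induced map on left cosets. -/
def cosetCongr (K : Subgroup G) (σ : G ≃* G) (hσ : ∀ x ∈ K, σ x ∈ K) : G ⧸ K → G ⧸ K :=
  Quotient.map' σ (fun a b hab => by
    rw [QuotientGroup.leftRel_apply] at hab ⊢
    rw [← map_inv, ← map_mul]
    exact hσ _ hab)

theorem cosetCongr_mk (K : Subgroup G) (σ : G ≃* G) (hσ : ∀ x ∈ K, σ x ∈ K) (g : G) :
    cosetCongr K σ hσ (g : G ⧸ K) = ((σ g : G) : G ⧸ K) := rfl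

theorem cosetCongr_smul (K : Subgroup G) (σ : G ≃* G) (hσ : ∀ x ∈ K, σ x ∈ K) (g : G)
    (q : G ⧸ K) : cosetCongr K σ hσ (g • q) = σ g • cosetCongr K σ hσ q := by
  obtain ⟨x, rfl⟩ := QuotientGroup.mk_surjective q
  show cosetCongr K σ hσ ((g * x : G) : G ⧸ K) = _
  rw [cosetCongr_mk, cosetCongr_mk, map_mul]
  rfl

/-- The induced bijection on left cosets. -/
def cosetCongrEquiv (K : Subgroup G) (σ : G ≃* G) (hσ : ∀ x ∈ K, σ x ∈ K)
    (hσ' : ∀ x ∈ K, σ.symm x ∈ K) : G ⧸ K ≃ G ⧸ K where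
  toFun := cosetCongr K σ hσ
  invFun := cosetCongr K σ.symm hσ'
  left_inv q := by
    obtain ⟨x, rfl⟩ := QuotientGroup.mk_surjective q
    rw [cosetCongr_mk, cosetCongr_mk, MulEquiv.symm_apply_apply]
  right_inv q := by
    obtain ⟨x, rfl⟩ := QuotientGroup.mk_surjective q
    rw [cosetCongr_mk, cosetCongr_mk, MulEquiv.apply_symm_apply]

/-- Extension by `1` of a homomorphism defined on a subgroup. -/
def extOne {M : Type*} [CommGroup M] {K : Subgroup G} (ϕ : K →* M) (x : G) : M :=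
  open Classical in if h : x ∈ K then ϕ ⟨x, h⟩ else 1

theorem extOne_mem {M : Type*} [CommGroup M] {K : Subgroup G} (ϕ : K →* M) {x : G}
    (h : x ∈ K) : extOne ϕ x = ϕ ⟨x, h⟩ := by
  unfold extOne
  rw [dif_pos h]

theorem transfer_eq_prod_extOne {M : Type*} [CommGroup M] {K : Subgroup G} (ϕ : K →* M)
    [K.FiniteIndex] [Fintype (G ⧸ K)] (tf : G ⧸ K → G) (htf : ∀ q, (tf q : G ⧸ K) = q) (g : G) :
    transfer ϕ g = ∏ q : G ⧸ K, extOne ϕ ((tf q)⁻¹ * (g * tf (g⁻¹ • q))) := by
  rw [transfer_eq_prod_section ϕ tf htf g]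
  refine Finset.prod_congr rfl fun q _ => ?_
  rw [extOne_mem ϕ (section_mem tf htf g q)]

/-- Transfer and a compatible pair of automorphisms. -/
theorem transfer_comp_equiv {M : Type*} [CommGroup M] {K : Subgroup G} (ϕ ϕ' : K →* M)
    [K.FiniteIndex] (σ : G ≃* G) (hσ : ∀ x ∈ K, σ x ∈ K) (hσ' : ∀ x ∈ K, σ.symm x ∈ K)
    (hϕ : ∀ (x : G) (hx : x ∈ K), ϕ' ⟨x, hx⟩ = ϕ ⟨σ x, hσ x hx⟩) (g : G) :
    transfer ϕ' g = transfer ϕ (σ g) := by
  classical
  let _ : Fintype (G ⧸ K) := K.fintypeQuotientOfFiniteIndex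
  set e : G ⧸ K ≃ G ⧸ K := cosetCongrEquiv K σ hσ hσ' with he
  have hext : ∀ x : G, extOne ϕ' x = extOne ϕ (σ x) := by
    intro x
    by_cases hx : x ∈ K
    · rw [extOne_mem ϕ' hx, extOne_mem ϕ (hσ x hx), hϕ x hx]
    · have hx' : σ x ∉ K := fun h => hx (by simpa using hσ' _ h)
      unfold extOne
      rw [dif_neg hx, dif_neg hx']
  have htf' : ∀ q : G ⧸ K, ((σ.symm (Quotient.out (e q)) : G) : G ⧸ K) = q := by
    intro q
    have h1 : ((σ.symm (Quotient.out (e q)) : G) : G ⧸ K) =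
        e.symm ((Quotient.out (e q) : G) : G ⧸ K) := rfl
    rw [h1, QuotientGroup.out_eq', Equiv.symm_apply_apply]
  have hR : transfer ϕ (σ g) =
      ∏ q : G ⧸ K, extOne ϕ ((Quotient.out (e q))⁻¹ * (σ g * Quotient.out ((σ g)⁻¹ • e q))) := by
    rw [transfer_eq_prod_extOne ϕ Quotient.out QuotientGroup.out_eq' (σ g)]
    exact (Equiv.prod_comp e
      (fun q => extOne ϕ ((Quotient.out q)⁻¹ * (σ g * Quotient.out ((σ g)⁻¹ • q))))).symm
  rw [hR, transfer_eq_prod_extOne ϕ' (fun q => σ.symm (Quotient.out (e q))) htf' g]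
  refine Finset.prod_congr rfl fun q _ => ?_
  rw [hext]
  have h2 : e (g⁻¹ • q) = (σ g)⁻¹ • e q := by
    rw [he]
    show cosetCongr K σ hσ (g⁻¹ • q) = _
    rw [cosetCongr_smul, map_inv]
    rfl
  simp only [map_mul, map_inv, MulEquiv.apply_symm_apply, h2]

/-- The corestriction is natural under a pair of compatible automorphisms. -/
theorem coresFun_comp_equiv (f : H →* G) {A : Type*} [AddCommGroup A] (σ : G ≃* G) (τ : H ≃* H)
    (hστ : ∀ x, f (τ x) = σ (f x)) (c : Additive H →+ A) :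
    coresFun f A (c.comp (MonoidHom.toAdditive τ.toMonoidHom)) =
      (coresFun f A c).comp (MonoidHom.toAdditive σ.toMonoidHom) := by
  classical
  by_cases h : Function.Injective f ∧ f.range.FiniteIndex
  · obtain ⟨hf, hfin⟩ := h
    refine AddMonoidHom.ext fun γ => ?_
    obtain ⟨γ, rfl⟩ := Additive.ofMul.surjective γ
    rw [AddMonoidHom.comp_apply, coresFun_apply f A hf]
    have h1 : (MonoidHom.toAdditive σ.toMonoidHom) (Additive.ofMul γ) =
        Additive.ofMul (σ γ) := rfl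
    rw [h1, coresFun_apply f A hf]
    have hσ : ∀ x ∈ f.range, σ x ∈ f.range := by
      rintro _ ⟨y, rfl⟩
      exact ⟨τ y, hστ y⟩
    have hσ' : ∀ x ∈ f.range, σ.symm x ∈ f.range := by
      rintro _ ⟨y, rfl⟩
      refine ⟨τ.symm y, ?_⟩
      rw [MulEquiv.eq_symm_apply, ← hστ, MulEquiv.apply_symm_apply]
    congr 1
    refine transfer_comp_equiv _ _ σ hσ hσ' ?_ γ
    rintro x ⟨y, rfl⟩
    have e1 : ∀ (z : H) (hz : f z ∈ f.range),
        ((MonoidHom.ofInjective hf).symm : f.range →* H) ⟨f z, hz⟩ = z := by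
      intro z hz
      show (MonoidHom.ofInjective hf).symm ⟨f z, hz⟩ = z
      rw [MulEquiv.symm_apply_eq]
      exact Subtype.ext rfl
    have e2 : ((MonoidHom.ofInjective hf).symm : f.range →* H) ⟨σ (f y), hσ _ ⟨y, rfl⟩⟩ =
        τ y := by
      have : (⟨σ (f y), hσ _ ⟨y, rfl⟩⟩ : f.range) = ⟨f (τ y), ⟨τ y, rfl⟩⟩ :=
        Subtype.ext (hστ y).symm
      rw [this, e1]
    rw [MonoidHom.comp_apply, MonoidHom.comp_apply, e1, e2]
    rfl
  · rw [coresFun_of_not f A h, coresFun_of_not f A h, AddMonoidHom.zero_comp]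

end General

end Fermat.Agent.LNewC
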