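/-
Cluster L (S41, level raising), WP NEW-C.  Owner: helper67.

The two corestrictions `Hom(Γ₀(N q), ℂ) → Hom(Γ₀(N), ℂ)` as `ℂ`-linear maps; they commute with
the change of coefficients `ℤ → ℂ` and with `charInvolution`.
-/
import Fermat.Agent.L.NewC.Natural

set_option autoImplicit false

noncomputable section

namespace Fermat.Agent.LNewC

open CongruenceSubgroup ModularCurve.Period Fermat.Agent.LDeg Fermat.Agent.L Fermat.Agent.F3EC
open scoped MatrixGroups

variable (N q : ℕ)

/-- `jConjGamma0` as a multiplicative equivalence. -/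
def jConjEquiv (M : ℕ) : Gamma0 M ≃* Gamma0 M where
  toFun := jConjGamma0 M
  invFun := jConjGamma0 M
  left_inv := jConjGamma0_jConjGamma0 M
  right_inv := jConjGamma0_jConjGamma0 M
  map_mul' := map_mul _

theorem charInvolution_eq_comp (M : ℕ) (R : Type*) [Semiring R] (A : Type*) [AddCommGroup A]
    [Module R A] (c : Additive (Gamma0 M) →+ A) :
    charInvolution M R A c = c.comp (MonoidHom.toAdditive (jConjEquiv M).toMonoidHom) := rfl

theorem incl_jConj (γ : Gamma0 (N * q)) :
    incl N q (jConjEquiv (N * q) γ) = jConjEquiv N (incl N q γ) := rfl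

theorem inclD_jConj [NeZero q] (γ : Gamma0 (N * q)) :
    inclD N q (jConjEquiv (N * q) γ) = jConjEquiv N (inclD N q γ) := by
  obtain ⟨c, hc⟩ := q_dvd_of_mem N q γ.2
  have hq : (q : ℤ) ≠ 0 := by exact_mod_cast NeZero.ne q
  apply Subtype.ext
  apply Subtype.ext
  show conjDMat q (jConjSL (γ : SL(2, ℤ))) = jConjMat (conjDMat q (γ : SL(2, ℤ)))
  ext i j
  fin_cases i <;> fin_cases j
  · simp [conjDMat, jConjMat]
  · simp [conjDMat, jConjMat]
  · simp only [conjDMat, jConjMat, jConjSL_coe, Fin.mk_one, Fin.isValue, Fin.zero_eta,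
      Matrix.of_apply, Matrix.cons_val', Matrix.cons_val_zero, Matrix.cons_val_one, hc]
    rw [← mul_neg, Int.mul_ediv_cancel_left _ hq, Int.mul_ediv_cancel_left _ hq]
  · simp [conjDMat, jConjMat]

variable {A : Type*} [AddCommGroup A]

theorem coresAll_charInvolution (R : Type*) [Semiring R] [Module R A]
    (c : Additive (Gamma0 (N * q)) →+ A) :
    coresAll N q A (charInvolution (N * q) R A c) = charInvolution N R A (coresAll N q A c) := by
  rw [charInvolution_eq_comp, charInvolution_eq_comp]
  exact coresFun_comp_equiv (incl N q) (jConjEquiv N) (jConjEquiv (N * q)) (incl_jConj N q) c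

theorem coresAllD_charInvolution [NeZero q] (R : Type*) [Semiring R] [Module R A]
    (c : Additive (Gamma0 (N * q)) →+ A) :
    coresAllD N q A (charInvolution (N * q) R A c) =
      charInvolution N R A (coresAllD N q A c) := by
  rw [charInvolution_eq_comp, charInvolution_eq_comp]
  exact coresFun_comp_equiv (inclD N q) (jConjEquiv N) (jConjEquiv (N * q)) (inclD_jConj N q) c

theorem coresAll_castHom (c : Additive (Gamma0 (N * q)) →+ ℤ) :
    coresAll N q ℂ (castHom (N * q) c) = castHom N (coresAll N q ℤ c) :=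
  coresFun_comp_coeff (incl N q) (Int.castAddHom ℂ) c

theorem coresAllD_castHom [NeZero q] (c : Additive (Gamma0 (N * q)) →+ ℤ) :
    coresAllD N q ℂ (castHom (N * q) c) = castHom N (coresAllD N q ℤ c) :=
  coresFun_comp_coeff (inclD N q) (Int.castAddHom ℂ) c

theorem smul_hom_eq_comp {Γ : Type*} [Group Γ] (z : ℂ) (c : Additive Γ →+ ℂ) :
    z • c = (AddMonoidHom.mulLeft z).comp c := by
  ext γ
  rfl

/-- Corestriction along the inclusion, `ℂ`-linear. -/
def coresLin : (Additive (Gamma0 (N * q)) →+ ℂ) →ₗ[ℂ] (Additive (Gamma0 N) →+ ℂ) where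
  toFun := coresAll N q ℂ
  map_add' c d := coresFun_add (incl N q) ℂ c d
  map_smul' z c := by
    show coresFun (incl N q) ℂ (z • c) = z • coresFun (incl N q) ℂ c
    rw [smul_hom_eq_comp, smul_hom_eq_comp]
    exact coresFun_comp_coeff (incl N q) (AddMonoidHom.mulLeft z) c

/-- Corestriction along `γ ↦ δ γ δ⁻¹`, `ℂ`-linear. -/
def coresLinD [NeZero q] : (Additive (Gamma0 (N * q)) →+ ℂ) →ₗ[ℂ] (Additive (Gamma0 N) →+ ℂ) where
  toFun := coresAllD N q ℂ
  map_add' c d := coresFun_add (inclD N q) ℂ c d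
  map_smul' z c := by
    show coresFun (inclD N q) ℂ (z • c) = z • coresFun (inclD N q) ℂ c
    rw [smul_hom_eq_comp, smul_hom_eq_comp]
    exact coresFun_comp_coeff (inclD N q) (AddMonoidHom.mulLeft z) c

@[simp] theorem coresLin_apply (c : Additive (Gamma0 (N * q)) →+ ℂ) :
    coresLin N q c = coresAll N q ℂ c := rfl

@[simp] theorem coresLinD_apply [NeZero q] (c : Additive (Gamma0 (N * q)) →+ ℂ) :
    coresLinD N q c = coresAllD N q ℂ c := rfl

end Fermat.Agent.LNewC
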