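/-
Cluster L (S41, level raising), WP NEW-C.  Owner: helper67.

A commuting family of endomorphisms of a finite-dimensional complex vector space has a common
eigenvector in every nonzero stable subspace.
-/
import Fermat.Agent.S49.H91Eigen

set_option autoImplicit false

noncomputable section

namespace Fermat.Agent.LNewC

open Module

variable {V : Type*} [AddCommGroup V] [Module ℂ V] {ι : Type*}

theorem exists_common_eigenvector_family [FiniteDimensional ℂ V] [Nontrivial V]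
    (T : ι → Module.End ℂ V) (hcomm : ∀ i j, Commute (T i) (T j)) :
    ∃ v : V, v ≠ 0 ∧ ∃ μ : ι → ℂ, ∀ i, T i v = μ i • v := by
  classical
  have hcomm' : ∀ x ∈ Set.range T, ∀ y ∈ Set.range T, x * y = y * x := by
    rintro _ ⟨i, rfl⟩ _ ⟨j, rfl⟩
    exact (hcomm i j).eq
  letI : CommRing (Algebra.adjoin ℤ (Set.range T)) := Algebra.adjoinCommRingOfComm ℤ hcomm'
  let ρ : Algebra.adjoin ℤ (Set.range T) →+* Module.End ℂ V :=
    (Algebra.adjoin ℤ (Set.range T)).val.toRingHom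
  have hρ : ∀ t : Algebra.adjoin ℤ (Set.range T), ρ t = (t : Module.End ℂ V) := fun _ => rfl
  haveI : Nontrivial (Algebra.adjoin ℤ (Set.range T)) := by
    refine ⟨⟨0, 1, fun h => ?_⟩⟩
    have h1 : ρ 0 = ρ 1 := congrArg ρ h
    rw [map_zero, map_one] at h1
    exact zero_ne_one h1
  obtain ⟨m₀, hm₀⟩ := Ideal.exists_maximal (Algebra.adjoin ℤ (Set.range T))
  haveI : m₀.IsPrime := hm₀.isPrime
  obtain ⟨v, hv, χ, hχ, -⟩ := Fermat.Agent.S49h91.exists_common_eigenvector_of_prime ρ m₀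
    (fun t ht => by
      have : t = 0 := Subtype.ext (by rw [← hρ, ht]; rfl)
      rw [this]
      exact m₀.zero_mem)
  refine ⟨v, hv, fun i => χ ⟨T i, Algebra.subset_adjoin ⟨i, rfl⟩⟩, fun i => ?_⟩
  exact hχ ⟨T i, Algebra.subset_adjoin ⟨i, rfl⟩⟩

/-- Common eigenvector in a nonzero stable subspace. -/
theorem exists_common_eigenvector_submodule [FiniteDimensional ℂ V]
    (T : ι → Module.End ℂ V) (hcomm : ∀ i j, Commute (T i) (T j))
    (X : Submodule ℂ V) (hX : ∀ i, ∀ v ∈ X, T i v ∈ X) (x₀ : V) (hx₀ : x₀ ∈ X) (hx₀' : x₀ ≠ 0) :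
    ∃ v : V, v ∈ X ∧ v ≠ 0 ∧ ∃ μ : ι → ℂ, ∀ i, T i v = μ i • v := by
  haveI : Nontrivial X := ⟨⟨⟨x₀, hx₀⟩, 0, fun h => hx₀' (congrArg Subtype.val h)⟩⟩
  obtain ⟨v, hv, μ, hμ⟩ := exists_common_eigenvector_family
    (fun i => (T i).restrict (hX i))
    (fun i j => LinearMap.ext fun v => Subtype.ext
      (show T i (T j (v : V)) = T j (T i (v : V)) from
        congrArg (fun S : Module.End ℂ V => S (v : V)) (hcomm i j).eq))
  exact ⟨(v : V), v.2, fun h => hv (Subtype.ext h), μ,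
    fun i => congrArg Subtype.val (hμ i)⟩

end Fermat.Agent.LNewC
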