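/-
Cluster L (S41, level raising), WP NEW-C.  Owner: helper67.

The Hecke operators `T_ℓ` (`ℓ ∤ M`) on `Hom(Γ₀(M), ℂ)` as `ℂ`-linear maps: compatibility with the
lattice `HomPar M`, equivariance of `periodHomPair`, commutativity on parabolic homomorphisms.
-/
import Fermat.Agent.F3.EigenChar.PeriodEigen
import Fermat.Agent.F3.EigenChar.Involution
import Fermat.Agent.S21
import Fermat.Agent.S49.Lattice

set_option autoImplicit false

noncomputable section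

namespace Fermat.Agent.LNewC

open CongruenceSubgroup ModularCurve ModularCurve.Period Fermat.Agent.F3EC
open scoped MatrixGroups

variable (M : ℕ)

/-- `T_ℓ` on `Hom(Γ₀(M), ℂ)`, `ℂ`-linear; zero if `ℓ ∣ M`. -/
def heckeC (ℓ : Nat.Primes) : Module.End ℂ (Additive (Gamma0 M) →+ ℂ) :=
  haveI : Fact (ℓ : ℕ).Prime := ⟨ℓ.2⟩
  if h : ¬ (ℓ : ℕ) ∣ M then
    { toFun := heckeHomAll h ℂ
      map_add' := map_add _
      map_smul' := fun z c => heckeHomAll_smul h z c }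
  else 0

variable {M}

theorem heckeC_apply (ℓ : Nat.Primes) (h : ¬ (ℓ : ℕ) ∣ M) (c : Additive (Gamma0 M) →+ ℂ) :
    haveI : Fact (ℓ : ℕ).Prime := ⟨ℓ.2⟩
    heckeC M ℓ c = heckeHomAll h ℂ c := by
  rw [heckeC, dif_pos h]
  rfl

theorem heckeC_homParCast (ℓ : Nat.Primes) (h : ¬ (ℓ : ℕ) ∣ M) (c : HomPar M) :
    heckeC M ℓ (homParCast M c) = homParCast M (heckeHom M ℓ c) := by
  haveI : Fact (ℓ : ℕ).Prime := ⟨ℓ.2⟩
  rw [heckeC_apply ℓ h]
  show heckeHomAll h ℂ (castHom M (c : Additive (Gamma0 M) →+ ℤ)) =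
    castHom M ((heckeHom M ℓ c : HomPar M) : Additive (Gamma0 M) →+ ℤ)
  rw [heckeHom_coe ℓ h, heckeHomAll_castHom]

theorem heckeC_charInvolution (ℓ : Nat.Primes) (h : ¬ (ℓ : ℕ) ∣ M)
    (c : Additive (Gamma0 M) →+ ℂ) :
    heckeC M ℓ (charInvolution M ℂ ℂ c) = charInvolution M ℂ ℂ (heckeC M ℓ c) := by
  haveI : Fact (ℓ : ℕ).Prime := ⟨ℓ.2⟩
  rw [heckeC_apply ℓ h, heckeC_apply ℓ h, heckeHomAll_charInvolution]

theorem heckeC_periodMap [NeZero M] (ℓ : Nat.Primes) (h : ¬ (ℓ : ℕ) ∣ M)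
    (f : CuspForm (Gamma0 M) 2) :
    heckeC M ℓ (periodMap M f) = periodMap M (CuspForm.heckeTLin 2 ℓ.2 h f) := by
  haveI : Fact (ℓ : ℕ).Prime := ⟨ℓ.2⟩
  rw [heckeC_apply ℓ h, periodMap_heckeT ℓ.2 h]

/-- **Hecke-equivariance of `periodHomPair`.** -/
theorem heckeC_periodHomPair [NeZero M] (ℓ : Nat.Primes) (h : ¬ (ℓ : ℕ) ∣ M)
    (f g : CuspForm (Gamma0 M) 2) :
    heckeC M ℓ (periodHomPair M (f, g)) =
      periodHomPair M (CuspForm.heckeTLin 2 ℓ.2 h f, CuspForm.heckeTLin 2 ℓ.2 h g) := by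
  rw [Fermat.Agent.S21.periodHomPair_apply, Fermat.Agent.S21.periodHomPair_apply, map_add,
    map_add, map_sub, heckeC_charInvolution ℓ h, heckeC_charInvolution ℓ h,
    heckeC_periodMap ℓ h, heckeC_periodMap ℓ h]

theorem exists_periodHomPair_eq [NeZero M] {c : Additive (Gamma0 M) →+ ℂ}
    (hc : c ∈ parabolicHoms ℂ (Gamma0 M) ℂ) :
    ∃ f g : CuspForm (Gamma0 M) 2, periodHomPair M (f, g) = c := by
  rw [← (Fermat.Agent.S21.result M).2] at hc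
  obtain ⟨⟨f, g⟩, hfg⟩ := hc
  exact ⟨f, g, hfg⟩

theorem heckeTLin_comm_apply [NeZero M] (ℓ ℓ' : Nat.Primes) (h : ¬ (ℓ : ℕ) ∣ M)
    (h' : ¬ (ℓ' : ℕ) ∣ M) (f : CuspForm (Gamma0 M) 2) :
    CuspForm.heckeTLin 2 ℓ.2 h (CuspForm.heckeTLin 2 ℓ'.2 h' f) =
      CuspForm.heckeTLin 2 ℓ'.2 h' (CuspForm.heckeTLin 2 ℓ.2 h f) := by
  have hc := Fermat.Agent.S49.Forms.heckeFam_commute (N := M) ℓ ℓ'
  rw [Fermat.Agent.S49.Forms.heckeFam_of_not_dvd h,
    Fermat.Agent.S49.Forms.heckeFam_of_not_dvd h'] at hc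
  exact congrArg (fun S : Module.End ℂ (CuspForm (Gamma0 M) 2) => S f) hc.eq

/-- The `T_ℓ` commute on parabolic homomorphisms. -/
theorem heckeC_comm_parabolic [NeZero M] (ℓ ℓ' : Nat.Primes) (h : ¬ (ℓ : ℕ) ∣ M)
    (h' : ¬ (ℓ' : ℕ) ∣ M) {c : Additive (Gamma0 M) →+ ℂ}
    (hc : c ∈ parabolicHoms ℂ (Gamma0 M) ℂ) :
    heckeC M ℓ (heckeC M ℓ' c) = heckeC M ℓ' (heckeC M ℓ c) := by
  obtain ⟨f, g, rfl⟩ := exists_periodHomPair_eq hc
  rw [heckeC_periodHomPair ℓ' h', heckeC_periodHomPair ℓ h, heckeC_periodHomPair ℓ h,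
    heckeC_periodHomPair ℓ' h', heckeTLin_comm_apply ℓ ℓ' h h' f,
    heckeTLin_comm_apply ℓ ℓ' h h' g]

theorem homParCast_mem_parabolicHoms (c : HomPar M) :
    homParCast M c ∈ parabolicHoms ℂ (Gamma0 M) ℂ := by
  rw [mem_parabolicHoms_iff]
  intro γ hγ
  have h1 := (mem_parabolicHoms_iff.mp c.2) γ hγ
  show (((c : Additive (Gamma0 M) →+ ℤ) (Additive.ofMul γ) : ℤ) : ℂ) = 0
  rw [h1, Int.cast_zero]

theorem homParCast_injective : Function.Injective (homParCast M) := by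
  intro c d h
  apply Subtype.ext
  refine AddMonoidHom.ext fun γ => ?_
  have h1 := congrArg (fun e : Additive (Gamma0 M) →+ ℂ => e γ) h
  simp only [homParCast_apply] at h1
  exact_mod_cast h1

theorem finiteDimensional_cuspForm (M : ℕ) [NeZero M] :
    FiniteDimensional ℂ (CuspForm (Gamma0 M) 2) :=
  Fermat.Agent.S21.finiteDimensional_cuspForm_of_injective M (Fermat.Agent.S21.result M).1
    (Fermat.Agent.S21.finiteDimensional_parabolicHoms M)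

end Fermat.Agent.LNewC
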