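/-
Cluster L (S41, level raising), WP NEW-C.  Owner: helper67.

The Deligne–Serre lifting lemma (`S49h91.lifting_lemma_indexed_nat`) for a finitely generated
`ℤ`-lattice `Λ` in an arbitrary complex vector space `W`, stable under a family of endomorphisms
that commute on `Λ`: the eigenvector is found in the `ℂ`-span of `Λ`.
-/
import Fermat.Agent.S49.H91Indexed

set_option autoImplicit false

noncomputable section

namespace Fermat.Agent.LNewC

open Module

variable {W : Type*} [AddCommGroup W] [Module ℂ W] {ι : Type*}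

theorem span_stable (T : Module.End ℂ W) (Λ : Submodule ℤ W) (hΛ : ∀ v ∈ Λ, T v ∈ Λ) :
    ∀ v ∈ Submodule.span ℂ (Λ : Set W), T v ∈ Submodule.span ℂ (Λ : Set W) := by
  intro v hv
  induction hv using Submodule.span_induction with
  | mem x hx => exact Submodule.subset_span (hΛ x hx)
  | zero => rw [map_zero]; exact Submodule.zero_mem _
  | add x y _ _ hx hy => rw [map_add]; exact Submodule.add_mem _ hx hy
  | smul z x _ hx => rw [map_smul]; exact Submodule.smul_mem _ z hx

theorem span_commute (S T : Module.End ℂ W) (Λ : Submodule ℤ W)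
    (h : ∀ v ∈ Λ, S (T v) = T (S v)) :
    ∀ v ∈ Submodule.span ℂ (Λ : Set W), S (T v) = T (S v) := by
  intro v hv
  induction hv using Submodule.span_induction with
  | mem x hx => exact h x hx
  | zero => simp
  | add x y _ _ hx hy => rw [map_add, map_add, map_add, map_add, hx, hy]
  | smul z x _ hx => rw [map_smul, map_smul, map_smul, map_smul, hx]

theorem span_finiteDimensional (Λ : Submodule ℤ W) (hfg : Λ.FG) :
    FiniteDimensional ℂ (Submodule.span ℂ (Λ : Set W)) := by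
  obtain ⟨S, hS⟩ := hfg
  have h1 : Submodule.span ℂ (Λ : Set W) = Submodule.span ℂ (S : Set W) := by
    rw [← hS]
    exact Submodule.span_span_of_tower ℤ ℂ (S : Set W)
  rw [h1]
  exact FiniteDimensional.span_finset ℂ S

/-- **Lifting lemma on the span of a lattice.** -/
theorem lifting_on_span (T : ι → Module.End ℂ W) (Λ : Submodule ℤ W) (hfg : Λ.FG)
    (hΛ : ∀ i, ∀ v ∈ Λ, T i v ∈ Λ)
    (hcomm : ∀ i j, ∀ v ∈ Λ, T i (T j v) = T j (T i v))
    (a : ι → ℤ) (p : ℕ) (f₀ : W) (hf₀ : f₀ ∈ Λ)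
    (hf₀' : ¬ ∃ v ∈ Λ, f₀ = (p : ℂ) • v)
    (heig : ∀ i, ∃ v ∈ Λ, T i f₀ - (a i : ℂ) • f₀ = (p : ℂ) • v) :
    ∃ (g : W) (θ : ι → integralClosure ℤ ℂ) (𝔪' : Ideal (integralClosure ℤ ℂ)),
      g ∈ Submodule.span ℂ (Λ : Set W) ∧ g ≠ 0 ∧ 𝔪'.IsMaximal ∧
      ((p : ℕ) : integralClosure ℤ ℂ) ∈ 𝔪' ∧
      ∀ i, T i g = ((θ i : integralClosure ℤ ℂ) : ℂ) • g ∧
        θ i - (a i : integralClosure ℤ ℂ) ∈ 𝔪' := by
  classical
  set V : Submodule ℂ W := Submodule.span ℂ (Λ : Set W) with hV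
  have hVst : ∀ i, ∀ v ∈ V, T i v ∈ V := fun i => span_stable (T i) Λ (hΛ i)
  haveI : FiniteDimensional ℂ V := span_finiteDimensional Λ hfg
  let T' : ι → Module.End ℂ V := fun i => (T i).restrict (hVst i)
  have hT' : ∀ i (v : V), ((T' i v : V) : W) = T i (v : W) := fun i v => rfl
  -- the lattice inside `V`
  let ι₀ : V →ₗ[ℤ] W := V.subtype.restrictScalars ℤ
  have hι₀ : ∀ v : V, ι₀ v = (v : W) := fun v => rfl
  let L : Submodule ℤ V := Λ.comap ι₀
  have hLmem : ∀ v : V, v ∈ L ↔ (v : W) ∈ Λ := fun v => Iff.rfl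
  have hLfg : L.FG := by
    apply Submodule.fg_of_fg_map_injective ι₀ (fun x y h => Subtype.ext h)
    have : L.map ι₀ = Λ := by
      apply le_antisymm
      · rintro _ ⟨v, hv, rfl⟩
        exact hv
      · intro x hx
        exact ⟨⟨x, Submodule.subset_span hx⟩, hx, rfl⟩
    rw [this]
    exact hfg
  have hLspan : Submodule.span ℂ (L : Set V) = ⊤ := by
    have h := Submodule.span_span_coe_preimage (R := ℂ) (s := (Λ : Set W))
    exact h
  have hLst : ∀ i, ∀ v ∈ L, T' i v ∈ L := fun i v hv => hΛ i _ hv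
  have hint : ∀ i, IsIntegral ℤ (T' i) := fun i =>
    Fermat.Agent.S49h91.isIntegral_of_lattice (T' i) L hLfg hLspan (hLst i)
  have hcomm' : ∀ i j, Commute (T' i) (T' j) := by
    intro i j
    refine LinearMap.ext fun v => Subtype.ext ?_
    show T i (T j (v : W)) = T j (T i (v : W))
    exact span_commute (T i) (T j) Λ (hcomm i j) _ v.2
  obtain ⟨g, θ, 𝔪', hg0, hmax, hpm, hθ⟩ :=
    Fermat.Agent.S49h91.lifting_lemma_indexed_nat T' hcomm' hint a L.toAddSubgroup
      (fun i v hv => hLst i v hv) p ⟨f₀, Submodule.subset_span hf₀⟩ hf₀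
      (by
        rintro ⟨v, hv, hfv⟩
        exact hf₀' ⟨(v : W), hv, congrArg Subtype.val hfv⟩)
      (by
        intro i
        obtain ⟨v, hv, hv'⟩ := heig i
        refine ⟨⟨v, Submodule.subset_span hv⟩, hv, Subtype.ext ?_⟩
        exact hv')
  refine ⟨(g : W), θ, 𝔪', g.2, fun h => hg0 (Subtype.ext h), hmax, hpm, fun i => ⟨?_, (hθ i).2⟩⟩
  have := congrArg Subtype.val (hθ i).1
  exact this

end Fermat.Agent.LNewC
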