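/-
Cluster L (S41, level raising), WP NEW-C.  Owner: helper67.

`newStatement_of : DegStatement N q → NewFormsStatement N q → NewStatement N q`.

A mod `p` Hecke eigenclass `b` in the new lattice `ker β ⊆ HomPar (N q)` is lifted (Deligne–Serre)
to an eigenvector `c` in the `ℂ`-span of `ker β` inside `Hom(Γ₀(N q), ℂ)`; by Eichler–Shimura
(S21) `c = periodHomPair (g₁, g₂)`, the `g_j` are `T_ℓ`-eigenvectors killed by both traces, so
`U_q ^ 2 = 1` on them; a common eigenvector of the whole Hecke family in the space cut out by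
these conditions gives the normalised eigenform with `a_q ^ 2 = 1`.
-/
import Fermat.Agent.L.NewC.Interfaces
import Fermat.Agent.L.NewC.CoresC
import Fermat.Agent.L.NewC.SpanLift
import Fermat.Agent.L.NewC.Eigen
import Fermat.Agent.L.NewC.HeckeC
import Fermat.Agent.S49.H91StepC

set_option autoImplicit false

noncomputable section

namespace Fermat.Agent.LNewC

open CongruenceSubgroup ModularCurve ModularCurve.Period Fermat.Agent.F3EC Fermat.Agent.L
open scoped MatrixGroups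

variable {N q : ℕ}

/-- The period pairing intertwines a pair of maps on forms with a map on homomorphisms that
commutes with the involution. -/
theorem periodHomPair_intertwine [NeZero N] [NeZero (N * q)]
    (t : CuspForm (Gamma0 (N * q)) 2 →ₗ[ℂ] CuspForm (Gamma0 N) 2)
    (C : (Additive (Gamma0 (N * q)) →+ ℂ) →ₗ[ℂ] (Additive (Gamma0 N) →+ ℂ))
    (ht : ∀ f, periodMap N (t f) = C (periodMap (N * q) f))
    (hC : ∀ c, C (charInvolution (N * q) ℂ ℂ c) = charInvolution N ℂ ℂ (C c))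
    (f g : CuspForm (Gamma0 (N * q)) 2) :
    periodHomPair N (t f, t g) = C (periodHomPair (N * q) (f, g)) := by
  rw [Fermat.Agent.S21.periodHomPair_apply, Fermat.Agent.S21.periodHomPair_apply, map_add,
    map_add, map_sub, hC, hC, ht, ht]

/-- A form pair whose period class is killed by `C` is killed by `t`. -/
theorem eq_zero_of_cores_eq_zero [NeZero N] [NeZero (N * q)]
    (t : CuspForm (Gamma0 (N * q)) 2 →ₗ[ℂ] CuspForm (Gamma0 N) 2)
    (C : (Additive (Gamma0 (N * q)) →+ ℂ) →ₗ[ℂ] (Additive (Gamma0 N) →+ ℂ))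
    (ht : ∀ f, periodMap N (t f) = C (periodMap (N * q) f))
    (hC : ∀ c, C (charInvolution (N * q) ℂ ℂ c) = charInvolution N ℂ ℂ (C c))
    (f g : CuspForm (Gamma0 (N * q)) 2) (h0 : C (periodHomPair (N * q) (f, g)) = 0) :
    t f = 0 ∧ t g = 0 := by
  have h1 : periodHomPair N (t f, t g) = periodHomPair N (0, 0) := by
    rw [periodHomPair_intertwine t C ht hC, h0]
    exact (map_zero (periodHomPair N)).symm
  have h2 := (Fermat.Agent.S21.result N).1 h1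
  exact ⟨congrArg Prod.fst h2, congrArg Prod.snd h2⟩

theorem isCoresPair_unique [NeZero q] {β₁ β₂ β₁' β₂' : HomPar (N * q) →ₗ[ℤ] HomPar N}
    (h : IsCoresPair N q β₁ β₂) (h' : IsCoresPair N q β₁' β₂') : β₁' = β₁ ∧ β₂' = β₂ := by
  constructor
  · refine LinearMap.ext fun c => Subtype.ext ?_
    rw [h'.coe₁, h.coe₁]
  · refine LinearMap.ext fun c => Subtype.ext ?_
    rw [h'.coe₂, h.coe₂]

theorem natCast_smul_homParCast (M : ℕ) (p : ℕ) (k : HomPar M) :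
    (p : ℂ) • homParCast M k = homParCast M ((p : ℤ) • k) := by
  rw [map_zsmul, ← Int.cast_smul_eq_zsmul ℂ, Int.cast_natCast]

/-- **Step 1**: the Deligne–Serre lift of the eigenclass `b` inside the span of the new lattice. -/
theorem exists_lift [NeZero q] (hdeg : DegStatement N q) (hq : q.Prime) (hqN : ¬ q ∣ N)
    (hN : 0 < N) (β₁ β₂ : HomPar (N * q) →ₗ[ℤ] HomPar N) (hβ : IsCoresPair N q β₁ β₂)
    (p : ℕ) (hp : p.Prime) (a : Nat.Primes → ℤ) (P : Set Nat.Primes)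
    (hP : ∀ ℓ ∈ P, ¬ (ℓ : ℕ) ∣ N * q)
    (b : HomPar (N * q)) (hb1 : β₁ b = 0) (hb2 : β₂ b = 0)
    (hbp : ¬ ∃ b' : HomPar (N * q), b = (p : ℤ) • b')
    (heig : ∀ ℓ ∈ P, ∃ b' : HomPar (N * q), heckeHom (N * q) ℓ b - a ℓ • b = (p : ℤ) • b') :
    ∃ (c : Additive (Gamma0 (N * q)) →+ ℂ) (θ : {ℓ : Nat.Primes // ℓ ∈ P} → integralClosure ℤ ℂ)
      (𝔪' : Ideal (integralClosure ℤ ℂ)),
      c ∈ Submodule.span ℂ
        (((LinearMap.ker β₁ ⊓ LinearMap.ker β₂).map (homParCast (N * q)) :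
          Submodule ℤ (Additive (Gamma0 (N * q)) →+ ℂ)) : Set (Additive (Gamma0 (N * q)) →+ ℂ)) ∧
      c ≠ 0 ∧ 𝔪'.IsMaximal ∧ ((p : ℕ) : integralClosure ℤ ℂ) ∈ 𝔪' ∧
      ∀ i : {ℓ : Nat.Primes // ℓ ∈ P},
        heckeC (N * q) i.1 c = ((θ i : integralClosure ℤ ℂ) : ℂ) • c ∧
        θ i - ((a i.1 : ℤ) : integralClosure ℤ ℂ) ∈ 𝔪' := by
  classical
  haveI : NeZero N := ⟨hN.ne'⟩
  haveI : NeZero (N * q) := ⟨mul_ne_zero hN.ne' (NeZero.ne q)⟩
  obtain ⟨β₁', β₂', hβ', -, -, -, -, -, -, hc1, hc2⟩ := hdeg hq hqN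
  obtain ⟨e1, e2⟩ := isCoresPair_unique hβ hβ'
  subst e1 e2
  have hp0 : (p : ℤ) ≠ 0 := by exact_mod_cast hp.ne_zero
  set K : Submodule ℤ (HomPar (N * q)) := LinearMap.ker β₁' ⊓ LinearMap.ker β₂' with hK
  have hKmem : ∀ k, k ∈ K ↔ β₁' k = 0 ∧ β₂' k = 0 := fun k => by
    rw [hK, Submodule.mem_inf, LinearMap.mem_ker, LinearMap.mem_ker]
  have hKst : ∀ ℓ ∈ P, ∀ k ∈ K, heckeHom (N * q) ℓ k ∈ K := by
    intro ℓ hℓ k hk
    rw [hKmem] at hk ⊢
    rw [hc1 ℓ (hP ℓ hℓ), hc2 ℓ (hP ℓ hℓ), hk.1, hk.2, map_zero]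
    exact ⟨rfl, rfl⟩
  have hbK : b ∈ K := (hKmem b).mpr ⟨hb1, hb2⟩
  have hKfg : K.FG := IsNoetherian.noetherian K
  obtain ⟨c, θ, 𝔪', hcV, hc0, hmax, hpm, hθ⟩ := lifting_on_span
    (fun i : {ℓ : Nat.Primes // ℓ ∈ P} => heckeC (N * q) i.1)
    (K.map (homParCast (N * q))) (hKfg.map _)
    (by
      rintro ⟨ℓ, hℓ⟩ _ ⟨k, hk, rfl⟩
      exact ⟨heckeHom (N * q) ℓ k, hKst ℓ hℓ k hk, (heckeC_homParCast ℓ (hP ℓ hℓ) k).symm⟩)
    (by
      rintro ⟨ℓ, hℓ⟩ ⟨ℓ', hℓ'⟩ _ ⟨k, -, rfl⟩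
      exact heckeC_comm_parabolic ℓ ℓ' (hP ℓ hℓ) (hP ℓ' hℓ') (homParCast_mem_parabolicHoms k))
    (fun i => a i.1) p (homParCast (N * q) b) ⟨b, hbK, rfl⟩
    (by
      rintro ⟨_, ⟨k, -, rfl⟩, hk⟩
      rw [natCast_smul_homParCast] at hk
      exact hbp ⟨k, homParCast_injective hk⟩)
    (by
      rintro ⟨ℓ, hℓ⟩
      obtain ⟨b', hb'⟩ := heig ℓ hℓ
      have hb'K : b' ∈ K := by
        rw [hKmem]
        have h1 : (p : ℤ) • β₁' b' = 0 := by
          rw [← map_zsmul, ← hb', map_sub, map_zsmul, hc1 ℓ (hP ℓ hℓ), hb1, map_zero,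
            smul_zero, sub_zero]
        have h2 : (p : ℤ) • β₂' b' = 0 := by
          rw [← map_zsmul, ← hb', map_sub, map_zsmul, hc2 ℓ (hP ℓ hℓ), hb2, map_zero,
            smul_zero, sub_zero]
        exact ⟨(smul_eq_zero.mp h1).resolve_left hp0, (smul_eq_zero.mp h2).resolve_left hp0⟩
      refine ⟨homParCast (N * q) b', ⟨b', hb'K, rfl⟩, ?_⟩
      show heckeC (N * q) ℓ (homParCast (N * q) b) - ((a ℓ : ℤ) : ℂ) • homParCast (N * q) b =
        (p : ℂ) • homParCast (N * q) b'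
      rw [natCast_smul_homParCast, ← hb', heckeC_homParCast ℓ (hP ℓ hℓ), map_sub, map_zsmul,
        Int.cast_smul_eq_zsmul])
  exact ⟨c, θ, 𝔪', hcV, hc0, hmax, hpm, hθ⟩

/-- Both corestrictions kill the `ℂ`-span of the new lattice. -/
theorem cores_eq_zero_of_mem_span [NeZero q] (β₁ β₂ : HomPar (N * q) →ₗ[ℤ] HomPar N)
    (hβ : IsCoresPair N q β₁ β₂) {c : Additive (Gamma0 (N * q)) →+ ℂ}
    (hc : c ∈ Submodule.span ℂ
        (((LinearMap.ker β₁ ⊓ LinearMap.ker β₂).map (homParCast (N * q)) :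
          Submodule ℤ (Additive (Gamma0 (N * q)) →+ ℂ)) :
            Set (Additive (Gamma0 (N * q)) →+ ℂ))) :
    coresLin N q c = 0 ∧ coresLinD N q c = 0 := by
  constructor
  · have h : Submodule.span ℂ
        (((LinearMap.ker β₁ ⊓ LinearMap.ker β₂).map (homParCast (N * q)) :
          Submodule ℤ (Additive (Gamma0 (N * q)) →+ ℂ)) :
            Set (Additive (Gamma0 (N * q)) →+ ℂ)) ≤ LinearMap.ker (coresLin N q) := by
      refine Submodule.span_le.mpr ?_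
      rintro _ ⟨k, hk, rfl⟩
      rw [SetLike.mem_coe, LinearMap.mem_ker, coresLin_apply]
      show coresAll N q ℂ (castHom (N * q) (k : Additive (Gamma0 (N * q)) →+ ℤ)) = 0
      rw [coresAll_castHom, ← hβ.coe₁, LinearMap.mem_ker.mp hk.1]
      exact map_zero _
    exact LinearMap.mem_ker.mp (h hc)
  · have h : Submodule.span ℂ
        (((LinearMap.ker β₁ ⊓ LinearMap.ker β₂).map (homParCast (N * q)) :
          Submodule ℤ (Additive (Gamma0 (N * q)) →+ ℂ)) :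
            Set (Additive (Gamma0 (N * q)) →+ ℂ)) ≤ LinearMap.ker (coresLinD N q) := by
      refine Submodule.span_le.mpr ?_
      rintro _ ⟨k, hk, rfl⟩
      rw [SetLike.mem_coe, LinearMap.mem_ker, coresLinD_apply]
      show coresAllD N q ℂ (castHom (N * q) (k : Additive (Gamma0 (N * q)) →+ ℤ)) = 0
      rw [coresAllD_castHom, ← hβ.coe₂, LinearMap.mem_ker.mp hk.2]
      exact map_zero _
    exact LinearMap.mem_ker.mp (h hc)

/-- The kernel of an operator commuting with `B` is `B`-stable. -/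
theorem ker_stable_of_commute {V : Type*} [AddCommGroup V] [Module ℂ V] {B S : Module.End ℂ V}
    (h : Commute B S) : ∀ v ∈ LinearMap.ker S, B v ∈ LinearMap.ker S := by
  intro v hv
  rw [LinearMap.mem_ker] at hv ⊢
  have h1 : S (B v) = B (S v) := congrArg (fun T : Module.End ℂ V => T v) h.eq.symm
  rw [h1, hv, map_zero]

theorem smul_eq_smul_cancel {V : Type*} [AddCommGroup V] [Module ℂ V] {v : V} (hv : v ≠ 0)
    {x y : ℂ} (h : x • v = y • v) : x = y := by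
  have : (x - y) • v = 0 := by rw [sub_smul, h, sub_self]
  rcases smul_eq_zero.mp this with h | h
  · exact sub_eq_zero.mp h
  · exact absurd h hv

/-- **Step 3**: from a nonzero form `h`, eigenvector of the `T_ℓ` (`ℓ ∈ P`) with `U_q ^ 2 h = h`,
to a normalised eigenform with the same `T_ℓ`-eigenvalues and `a_q ^ 2 = 1`. -/
theorem exists_eigenform_of_partial {M : ℕ} [NeZero M] (q : ℕ) (hq : q.Prime) (hqM : q ∣ M)
    (P : Set Nat.Primes) (hP : ∀ ℓ ∈ P, ¬ (ℓ : ℕ) ∣ M) (θ : {ℓ : Nat.Primes // ℓ ∈ P} → ℂ)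
    (h : CuspForm (Gamma0 M) 2) (hh0 : h ≠ 0)
    (hT : ∀ i : {ℓ : Nat.Primes // ℓ ∈ P},
      CuspForm.heckeTLin 2 i.1.2 (hP i.1 i.2) h = θ i • h)
    (hU : CuspForm.heckeULin 2 hqM (CuspForm.heckeULin 2 hqM h) = h) :
    ∃ g : CuspForm (Gamma0 M) 2, g.IsNormalizedEigenform ∧ g.IsNewAt q ∧
      ∀ i : {ℓ : Nat.Primes // ℓ ∈ P}, ModularFormClass.qCoeff g (i.1 : ℕ) = θ i := by
  classical
  haveI : FiniteDimensional ℂ (CuspForm (Gamma0 M) 2) := finiteDimensional_cuspForm M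
  set Fam : Nat.Primes → Module.End ℂ (CuspForm (Gamma0 M) 2) :=
    Fermat.Agent.S49.Forms.heckeFam M with hFam
  have hcomm : ∀ ℓ ℓ', Commute (Fam ℓ) (Fam ℓ') := Fermat.Agent.S49.Forms.heckeFam_commute
  set qq : Nat.Primes := ⟨q, hq⟩ with hqq
  have hFq : Fam qq = CuspForm.heckeULin 2 hqM :=
    Fermat.Agent.S49.Forms.heckeFam_of_dvd (N := M) (ℓ := qq) hqM
  have hFi : ∀ i : {ℓ : Nat.Primes // ℓ ∈ P}, Fam i.1 = CuspForm.heckeTLin 2 i.1.2 (hP i.1 i.2) :=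
    fun i => Fermat.Agent.S49.Forms.heckeFam_of_not_dvd (hP i.1 i.2)
  -- the operators cutting out `X`
  let S : Option {ℓ : Nat.Primes // ℓ ∈ P} → Module.End ℂ (CuspForm (Gamma0 M) 2) := fun o =>
    match o with
    | none => Fam qq * Fam qq - 1
    | some i => Fam i.1 - algebraMap ℂ _ (θ i)
  have hS : ∀ ℓ o, Commute (Fam ℓ) (S o) := by
    intro ℓ o
    cases o with
    | none =>
      exact (((hcomm ℓ qq).mul_right (hcomm ℓ qq))).sub_right (Commute.one_right _)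
    | some i =>
      exact (hcomm ℓ i.1).sub_right (Algebra.commutes (θ i) (Fam ℓ)).symm
  let X : Submodule ℂ (CuspForm (Gamma0 M) 2) := ⨅ o, LinearMap.ker (S o)
  have hXst : ∀ ℓ, ∀ v ∈ X, Fam ℓ v ∈ X := by
    intro ℓ v hv
    rw [Submodule.mem_iInf] at hv ⊢
    exact fun o => ker_stable_of_commute (hS ℓ o) v (hv o)
  have hhX : h ∈ X := by
    rw [Submodule.mem_iInf]
    intro o
    rw [LinearMap.mem_ker]
    cases o with
    | none =>
      show (Fam qq * Fam qq - 1) h = 0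
      rw [LinearMap.sub_apply, Module.End.mul_apply, Module.End.one_apply, hFq, hU, sub_self]
    | some i =>
      show (Fam i.1 - algebraMap ℂ _ (θ i)) h = 0
      rw [LinearMap.sub_apply, Module.algebraMap_end_apply, hFi i, hT i, sub_self]
  obtain ⟨v, hvX, hv0, μ, hμ⟩ := exists_common_eigenvector_submodule Fam hcomm X hXst h hhX hh0
  rw [Submodule.mem_iInf] at hvX
  have hμi : ∀ i : {ℓ : Nat.Primes // ℓ ∈ P}, μ i.1 = θ i := by
    intro i
    have h1 := LinearMap.mem_ker.mp (hvX (some i))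
    have h2 : (Fam i.1 - algebraMap ℂ _ (θ i)) v = 0 := h1
    rw [LinearMap.sub_apply, Module.algebraMap_end_apply, hμ i.1, sub_eq_zero] at h2
    exact smul_eq_smul_cancel hv0 h2
  have hμq : μ qq ^ 2 = 1 := by
    have h1 := LinearMap.mem_ker.mp (hvX none)
    have h2 : (Fam qq * Fam qq - 1) v = 0 := h1
    rw [LinearMap.sub_apply, Module.End.mul_apply, Module.End.one_apply, hμ qq, map_smul,
      hμ qq, smul_smul, sub_eq_zero] at h2
    have h3 : (μ qq * μ qq) • v = (1 : ℂ) • v := by rw [h2, one_smul]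
    rw [pow_two]
    exact smul_eq_smul_cancel hv0 h3
  obtain ⟨g, hg, hgq⟩ := Fermat.Agent.S49h91.exists_normalizedEigenform_of_eigenvector v hv0
    (fun n => if hn : n.Prime then μ ⟨n, hn⟩ else 0)
    (fun ℓ hℓ hℓM => by
      rw [dif_pos hℓ, ← hμ ⟨ℓ, hℓ⟩]
      exact (congrArg (fun T : Module.End ℂ (CuspForm (Gamma0 M) 2) => T v)
        (Fermat.Agent.S49.Forms.heckeFam_of_not_dvd (N := M) (ℓ := ⟨ℓ, hℓ⟩) hℓM)).symm)
    (fun ℓ hℓ hℓM => by
      rw [dif_pos hℓ, ← hμ ⟨ℓ, hℓ⟩]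
      exact (congrArg (fun T : Module.End ℂ (CuspForm (Gamma0 M) 2) => T v)
        (Fermat.Agent.S49.Forms.heckeFam_of_dvd (N := M) (ℓ := ⟨ℓ, hℓ⟩) hℓM)).symm)
  refine ⟨g, hg, ?_, fun i => ?_⟩
  · show ModularFormClass.qCoeff g q ^ 2 = 1
    rw [hgq q hq, dif_pos hq]
    exact hμq
  · rw [hgq i.1 i.1.2, dif_pos i.1.2]
    exact hμi i

/-- **WP NEW** from the degeneracy package and the forms-side package. -/
theorem newStatement_of [NeZero q] (hdeg : DegStatement N q) (hforms : NewFormsStatement N q) :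
    NewStatement N q := by
  intro hq hqN hN β₁ β₂ hβ p hp a P hP b hb1 hb2 hbp heig
  classical
  haveI : NeZero N := ⟨hN.ne'⟩
  haveI : NeZero (N * q) := ⟨mul_ne_zero hN.ne' (NeZero.ne q)⟩
  obtain ⟨tr, trD, htr, htrD, hU⟩ := hforms hq hqN hN
  obtain ⟨c, θ, 𝔪', hcV, hc0, hmax, hpm, hθ⟩ :=
    exists_lift hdeg hq hqN hN β₁ β₂ hβ p hp a P hP b hb1 hb2 hbp heig
  -- `c` is parabolic, hence a period class
  have hcpar : c ∈ parabolicHoms ℂ (Gamma0 (N * q)) ℂ := by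
    refine (Submodule.span_le.mpr ?_) hcV
    rintro _ ⟨k, -, rfl⟩
    exact homParCast_mem_parabolicHoms k
  obtain ⟨g₁, g₂, hg⟩ := exists_periodHomPair_eq hcpar
  -- both traces vanish
  obtain ⟨hco, hcoD⟩ := cores_eq_zero_of_mem_span β₁ β₂ hβ hcV
  have ht := eq_zero_of_cores_eq_zero tr (coresLin N q) htr
    (fun c => coresAll_charInvolution N q ℂ c) g₁ g₂ (by rw [hg]; exact hco)
  have htD := eq_zero_of_cores_eq_zero trD (coresLinD N q) htrD
    (fun c => coresAllD_charInvolution N q ℂ c) g₁ g₂ (by rw [hg]; exact hcoD)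
  -- the components are eigenvectors
  have hTg : ∀ i : {ℓ : Nat.Primes // ℓ ∈ P},
      CuspForm.heckeTLin 2 i.1.2 (hP i.1 i.2) g₁ = ((θ i : integralClosure ℤ ℂ) : ℂ) • g₁ ∧
      CuspForm.heckeTLin 2 i.1.2 (hP i.1 i.2) g₂ = ((θ i : integralClosure ℤ ℂ) : ℂ) • g₂ := by
    intro i
    have h1 := (hθ i).1
    rw [← hg, heckeC_periodHomPair i.1 (hP i.1 i.2), ← map_smul] at h1
    have h2 := (Fermat.Agent.S21.result (N * q)).1 h1
    exact ⟨congrArg Prod.fst h2, congrArg Prod.snd h2⟩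
  have hg0 : g₁ ≠ 0 ∨ g₂ ≠ 0 := by
    by_contra hcon
    rw [not_or, not_not, not_not] at hcon
    apply hc0
    rw [← hg, hcon.1, hcon.2]
    exact map_zero (periodHomPair (N * q))
  obtain ⟨h, hh0, hhT, hhtr, hhtrD⟩ : ∃ h : CuspForm (Gamma0 (N * q)) 2, h ≠ 0 ∧
      (∀ i : {ℓ : Nat.Primes // ℓ ∈ P},
        CuspForm.heckeTLin 2 i.1.2 (hP i.1 i.2) h = ((θ i : integralClosure ℤ ℂ) : ℂ) • h) ∧
      tr h = 0 ∧ trD h = 0 := by
    rcases hg0 with h | h
    · exact ⟨g₁, h, fun i => (hTg i).1, ht.1, htD.1⟩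
    · exact ⟨g₂, h, fun i => (hTg i).2, ht.2, htD.2⟩
  have hdvd : q ∣ N * q := Dvd.intro_left N rfl
  have hUU : CuspForm.heckeULin 2 hdvd (CuspForm.heckeULin 2 hdvd h) = h :=
    DFunLike.coe_injective (hU h hhtr hhtrD)
  obtain ⟨g, hgn, hgnew, hgθ⟩ := exists_eigenform_of_partial q hq hdvd P hP
    (fun i => ((θ i : integralClosure ℤ ℂ) : ℂ)) h hh0 hhT hUU
  exact ⟨g, 𝔪', hgn, hmax, hpm, hgnew, fun ℓ hℓ => ⟨θ ⟨ℓ, hℓ⟩, (hgθ ⟨ℓ, hℓ⟩).symm,
    (hθ ⟨ℓ, hℓ⟩).2⟩⟩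

end Fermat.Agent.LNewC
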