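/-
Cluster L (S41, level raising), WP NEW: final wiring.  Owner: helper67.

`newStatement : L.NewStatement N q`, unconditional
(DEG: helper83/helper88, NEW-A: helper63, NEW-B: helper8, NEW-C: helper67).
-/
import Fermat.Agent.L.NewC.Assembly
import Fermat.Agent.L.NewB.NewForms
import Fermat.Agent.L.Degen.Main

set_option autoImplicit false

namespace Fermat.Agent.LNewC

/-- **WP NEW.**  A mod `p` Hecke eigenclass in the new lattice `ker β ⊆ HomPar (N q)` lifts to a
normalised eigenform of level `N q` with `a_q ^ 2 = 1`, congruent to it modulo a maximal ideal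
over `p`. -/
theorem newStatement (N q : ℕ) [NeZero q] : Fermat.Agent.L.NewStatement N q :=
  newStatement_of (Fermat.Agent.LDeg.degStatement N q) (Fermat.Agent.LNewB.newFormsStatement N q)

end Fermat.Agent.LNewC
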